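import Fermat.Agent.S18.H905.ConstInst
import Fermat.Agent.S24.H504.Residue
import Fermat.Agent.S37.H940.PlaceBasic

/-!
# S37 / node_rim, leaf RES (helper568): residue fields of places are the constants

Inputs `hresK`, `hresk` of helper940's `H940.reductionInputsAlong_of_atlas`:

* `exists_sub_inMax_of_finite` (generic, characteristic-free): `K` algebraically closed, `F` finite
  over `K(x)` for one transcendental `x`; then every function regular at a place `P` is congruent
  to a constant at `P`;
* `hresk_fullC` : the same for `F_k = modularFunctionFieldFullC k N` (primes of `N` invertible);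
* `hresK_bar`   : the same for `modularFunctionFieldBar N` over `ℚ̄`;
* `hresk_residue` : the same for `k = A/𝔪`, `A` over `ℓ ∤ N`;
* `deg_eq_one_*` : the corresponding statements `P.deg = 1`.
-/

set_option autoImplicit false

noncomputable section

namespace Fermat.Agent.S37.H568

open AlgebraicCurve ModularCurve IntermediateField

section Generic

variable {K F : Type*} [Field K] [Field F] [Algebra K F]

/-- A place has an element of order one. -/
theorem exists_ord_eq_one (P : Place K F) : ∃ t : F, P.ord t = 1 := by
  obtain ⟨π, hπ⟩ := IsDiscreteValuationRing.exists_irreducible P.toValuationSubring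
  exact ⟨(π : F), P.ord_coe_irreducible hπ⟩

/-- **Residue fields are trivial** (characteristic-free). -/
theorem exists_sub_inMax_of_finite [IsAlgClosed K] {x : F} (hx : Transcendental K x)
    [FiniteDimensional K⟮x⟯ F] (P : Place K F) (f : F) (hf : 0 ≤ P.ord f) :
    ∃ c : K, Fermat.Agent.S37.H940.InMax P (f - algebraMap K F c) := by
  obtain ⟨t, ht⟩ := exists_ord_eq_one P
  have htr : Transcendental K t := by
    apply Fermat.Agent.S24.FF.transcendental_of_not_mem_range
    rintro ⟨c, hc⟩
    have h0 : P.ord (algebraMap K F c) = 0 := Fermat.Agent.S24.FF.ord_algebraMap P c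
    have : P.ord t = 0 := by rw [← h0]; congr 1; exact hc.symm
    rw [this] at ht
    exact zero_ne_one ht
  haveI : FiniteDimensional K⟮t⟯ F :=
    Fermat.Agent.S24.FF.finiteDimensional_adjoin_of_transcendental hx htr
  haveI : Algebra.IsAlgebraic (IntermediateField.adjoin K {t}) F :=
    Algebra.IsAlgebraic.of_finite _ _
  obtain ⟨c, hc⟩ := Fermat.Agent.S24.H504.exists_sub_inMax (v := P) (t := t) (by omega) hf
  exact ⟨c, hc⟩

end Generic

section Modular

/-- `hresk` for `F_k = k(j(q^d) : d ∣ N)`, `k` algebraically closed, primes of `N` invertible. -/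
theorem hresk_fullC (k : Type*) [Field k] [IsAlgClosed k] (N : ℕ) [NeZero N]
    (hchar : ∀ p : ℕ, p.Prime → p ∣ N → (p : k) ≠ 0)
    (Q : Place k (modularFunctionFieldFullC k N)) (g : modularFunctionFieldFullC k N)
    (hg : 0 ≤ Q.ord g) :
    ∃ a : k, Fermat.Agent.S37.H940.InMax Q (g - algebraMap k (modularFunctionFieldFullC k N) a) :=
  haveI := Fermat.Agent.S18.H905.finiteDimensional_fullC k N hchar
  exists_sub_inMax_of_finite (Fermat.Agent.S18.H905.transcendental_jC k N) Q g hg

/-- `hresK` for `ℚ̄(X₀(N))`. -/
theorem hresK_bar (N : ℕ) [NeZero N]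
    (P : Place (AlgebraicClosure ℚ) (modularFunctionFieldBar N))
    (f : modularFunctionFieldBar N) (hf : 0 ≤ P.ord f) :
    ∃ c : AlgebraicClosure ℚ, Fermat.Agent.S37.H940.InMax P
      (f - algebraMap (AlgebraicClosure ℚ) (modularFunctionFieldBar N) c) := by
  have key : ∀ (S : IntermediateField (AlgebraicClosure ℚ)
      (LaurentSeries (AlgebraicClosure ℚ))),
      S = modularFunctionFieldFullC (AlgebraicClosure ℚ) N →
      ∀ (P : Place (AlgebraicClosure ℚ) ↥S) (f : ↥S), 0 ≤ P.ord f →
        ∃ c : AlgebraicClosure ℚ, Fermat.Agent.S37.H940.InMax P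
          (f - algebraMap (AlgebraicClosure ℚ) ↥S c) := by
    rintro S rfl P f hf
    exact hresk_fullC (AlgebraicClosure ℚ) N
      (fun p hp _ => Fermat.Agent.S28.H988.natCast_ne_zero_bar hp.ne_zero) P f hf
  exact key _ (Fermat.Agent.S28.H988.modularFunctionFieldBar_eq_fullC N) P f hf

/-- `hresk` for the residue field of a valuation subring `A ⊆ ℚ̄` over `ℓ ∤ N`. -/
theorem hresk_residue (N : ℕ) [NeZero N] {ℓ : ℕ} [Fact ℓ.Prime] (hℓN : ¬ ℓ ∣ N)
    (A : ValuationSubring (AlgebraicClosure ℚ)) (hA : A.LiesOverPrime ℓ)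
    (Q : Place (IsLocalRing.ResidueField A)
      (modularFunctionFieldFullC (IsLocalRing.ResidueField A) N))
    (g : modularFunctionFieldFullC (IsLocalRing.ResidueField A) N) (hg : 0 ≤ Q.ord g) :
    ∃ a : IsLocalRing.ResidueField A, Fermat.Agent.S37.H940.InMax Q
      (g - algebraMap (IsLocalRing.ResidueField A)
        (modularFunctionFieldFullC (IsLocalRing.ResidueField A) N) a) :=
  haveI := Fermat.Agent.S18.H905.isAlgClosed_residueField A
  hresk_fullC (IsLocalRing.ResidueField A) N
    (Fermat.Agent.S18.H905.hchar_residue N hℓN A hA) Q g hg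

end Modular

end Fermat.Agent.S37.H568

end
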